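import Fermat.Agent.S36.Hecke.Fricke
import Fermat.Agent.GAL.Hecke.NormFormulaCore
import Fermat.Agent.GAL.Hecke.Degree
import Fermat.Agent.DR.Hecke.NormLemmas

set_option autoImplicit false
set_option linter.style.haveILetI false
set_option linter.unusedSectionVars false

/-!
# S36/Hecke : degrees and the norm formula along `β` at level `M q`, `q ∣ M`

* `normAlong_beta_fricke` : `N_β (w_{Mq} y) = w_M (N_α y)` (any `M`, `q`);
* `finrankAlong_alpha_of_dvd`, `finrankAlong_beta_of_dvd` : both degrees are `q` if `q ∣ M`;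
* `qExpand_normAlong_beta` : `(N_β u)(t^q) = ∏_{i<q} u(ζ^i t)` if `q ∣ M`.
-/

open ModularCurve AlgebraicCurve IntermediateField

noncomputable section

namespace Fermat.Agent.S36.Hecke

open Fermat.Agent.S24 Fermat.Agent.GAL Fermat.Agent.GAL.Hecke Fermat.Agent.GAL.NormFormula
  Fermat.Agent.GAL.DegreeAlpha Fermat.Agent.DR.Hecke

variable (M q : ℕ) [NeZero M] [NeZero q]

/-- `N_β (w y) = w (N_α y)`. -/
theorem normAlong_beta_fricke (y : FN (M * q)) :
    normAlong (heckeBetaBar Kbar M q) (fricke (M * q) y) =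
      fricke M (normAlong (heckeAlphaBar Kbar M q) y) :=
  normAlong_equiv_equiv (heckeAlphaBar Kbar M q) (heckeBetaBar Kbar M q)
    (frickeEquiv M).toRingEquiv (frickeEquiv (M * q)).toRingEquiv
    (fun x => (fricke_alpha M q x).symm) y

/-- `N_α (w y) = w (N_β y)`. -/
theorem normAlong_alpha_fricke (y : FN (M * q)) :
    normAlong (heckeAlphaBar Kbar M q) (fricke (M * q) y) =
      fricke M (normAlong (heckeBetaBar Kbar M q) y) :=
  normAlong_equiv_equiv (heckeBetaBar Kbar M q) (heckeAlphaBar Kbar M q)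
    (frickeEquiv M).toRingEquiv (frickeEquiv (M * q)).toRingEquiv
    (fun x => (fricke_beta M q x).symm) y

/-- The two degeneracy maps have the same degree. -/
theorem finrankAlong_beta_eq_alpha :
    finrankAlong Kbar (heckeBetaBar Kbar M q) = finrankAlong Kbar (heckeAlphaBar Kbar M q) := by
  letI i1 := algebraAlong (heckeAlphaBar Kbar M q)
  letI i2 := algebraAlong (heckeBetaBar Kbar M q)
  exact (@Algebra.finrank_eq_of_equiv_equiv (FN M) (FN (M * q)) _ _ i1 (FN M) (FN (M * q)) _ _ i2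
    (frickeEquiv M).toRingEquiv (frickeEquiv (M * q)).toRingEquiv
    (RingHom.ext fun x => (fricke_alpha M q x).symm)).symm

variable {M q}

theorem finrankAlong_alpha_of_dvd (hq : q.Prime) (hqM : q ∣ M) :
    finrankAlong Kbar (heckeAlphaBar Kbar M q) = q := by
  have h1 := finrank_tower (heckeAlphaBar Kbar M q) (jF M)
  have h2 : dedekindPsi (M * q) = q * dedekindPsi M := by
    rw [mul_comm M q,
      Fermat.Agent.Lib.Gamma0Count.dedekindPsi_prime_mul_of_dvd hq (NeZero.ne M) hqM]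
  rw [alpha_jF, DegreeAlpha.finrank_jF, DegreeAlpha.finrank_jF, h2, mul_comm] at h1
  exact Nat.eq_of_mul_eq_mul_right (dedekindPsi_pos M) h1

theorem finrankAlong_beta_of_dvd (hq : q.Prime) (hqM : q ∣ M) :
    finrankAlong Kbar (heckeBetaBar Kbar M q) = q := by
  rw [finrankAlong_beta_eq_alpha, finrankAlong_alpha_of_dvd hq hqM]

/-- The `q` embeddings `u(t) ↦ u(ζ^i t)` of `FN (M q)` over `β`. -/
def embB (M q : ℕ) {ζ : Kbar} (hζ0 : ζ ≠ 0) (i : Fin q) : FN (M * q) →+* LaurentSeries Kbar :=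
  (Fermat.Agent.S24.twist (ζ ^ (i : ℕ)) (pow_ne_zero _ hζ0)).comp (valN (M * q))

theorem embB_apply {ζ : Kbar} (hζ0 : ζ ≠ 0) (i : Fin q) (x : FN (M * q)) :
    embB M q hζ0 i x =
      Fermat.Agent.S24.twist (ζ ^ (i : ℕ)) (pow_ne_zero _ hζ0) (x : LaurentSeries Kbar) := rfl

theorem embB_injective (hq : q.Prime) {ζ : Kbar} (hζ : IsPrimitiveRoot ζ q) :
    Function.Injective (embB M q (hζ.ne_zero hq.ne_zero)) := by
  have hζ0 := hζ.ne_zero hq.ne_zero
  intro i k hik
  have h1 : (embB M q hζ0 i (jF (M * q))).coeff (-1) = (embB M q hζ0 k (jF (M * q))).coeff (-1) := by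
    rw [hik]
  rw [embB_apply, embB_apply, twist_coeff, twist_coeff, coe_jF, coeff_jK_neg_one, mul_one, mul_one,
    zpow_neg_one, zpow_neg_one, inv_inj] at h1
  exact Fin.ext (hζ.pow_inj i.2 k.2 h1)

theorem embB_beta {ζ : Kbar} (hζ0 : ζ ≠ 0) (hζq : ζ ^ q = 1) (i : Fin q) (x : FN M) :
    embB M q hζ0 i (heckeBetaBar Kbar M q x) = qExpand Kbar q (x : LaurentSeries Kbar) := by
  rw [embB_apply, coe_heckeBetaBar, twist_qExpand q _ (by rw [← pow_mul, mul_comm, pow_mul,
      hζq, one_pow])]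

/-- **The norm formula along `β`** for `q ∣ M`: `(N_β u)(t^q) = ∏_{i<q} u(ζ^i t)`. -/
theorem qExpand_normAlong_beta (hq : q.Prime) (hqM : q ∣ M) {ζ : Kbar}
    (hζ : IsPrimitiveRoot ζ q) (u : FN (M * q)) :
    qExpand Kbar q ((normAlong (heckeBetaBar Kbar M q) u : FN M) : LaurentSeries Kbar) =
      ∏ i : Fin q, Fermat.Agent.S24.twist (ζ ^ (i : ℕ)) (pow_ne_zero _ (hζ.ne_zero hq.ne_zero))
        (u : LaurentSeries Kbar) := by
  have hζ0 := hζ.ne_zero hq.ne_zero
  exact @norm_eq_prod_of_embeddings (FN M) (FN (M * q)) (LaurentSeries Kbar)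
    (Fin q) _ _ _ _ _ (algebraAlong (heckeBetaBar Kbar M q)) (finiteAlong_beta M q)
    ((qExpand Kbar q).comp (valN M)) (embB M q hζ0)
    (fun i x => embB_beta hζ0 hζ.pow_eq_one i x) (embB_injective hq hζ)
    (by rw [Fintype.card_fin]; exact (finrankAlong_beta_of_dvd hq hqM).symm) u

end Fermat.Agent.S36.Hecke
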