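import Fermat.Agent.S36.Hecke.FrickeHecke
import Fermat.Agent.S36.Glue.Interface
import Fermat.Agent.DR.Hecke.Degen

set_option autoImplicit false
set_option linter.style.haveILetI false
set_option linter.unusedSectionVars false

/-!
# S36/Hecke : the structure `KVDegen2 M q` of `S36/Glue/Interface.lean` for `q ∣ M`
-/

noncomputable section

namespace Fermat.Agent.S36.Hecke

open AlgebraicCurve ModularCurve Fermat.Agent.S24 Fermat.Agent.GAL Fermat.Agent.GAL.Hecke
  Fermat.Agent.DR Fermat.Agent.DR.Hecke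

variable {M q : ℕ} [NeZero M] [NeZero q]

theorem betaKV_mk {m : ℕ} (u : kummerUnits Kbar (FN (M * q)) m) :
    betaKV M q m (KV.mk u) = KV.mk ⟨Units.map (normAlong (heckeBetaBar Kbar M q)) u,
      normAlong_mem_kummerUnits (heckeBetaBar Kbar M q) (finiteAlong_beta M q) u.2⟩ := rfl

theorem alphaKV_mk {m : ℕ} (u : kummerUnits Kbar (FN (M * q)) m) :
    alphaKV M q m (KV.mk u) = KV.mk ⟨Units.map (normAlong (heckeAlphaBar Kbar M q)) u,
      normAlong_mem_kummerUnits (heckeAlphaBar Kbar M q) (finiteAlong_alpha M q) u.2⟩ := rfl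

/-- **The formal compatibilities of the two push-forwards**, `q ∣ M`. -/
theorem kvDegen2 (hq : q.Prime) (hqM : q ∣ M) : KVDegen2 M q where
  alpha_red m m' h x := by
    obtain ⟨u, rfl⟩ := KV.mk_surjective x
    rw [KV.red_mk, alphaKV_mk, alphaKV_mk, KV.red_mk]
  alpha_hecke m ℓ _ hℓ hℓN x := by
    obtain ⟨u, rfl⟩ := KV.mk_surjective x
    rw [heckeT_mk (heckeNormPreserves (M * q) ℓ m), alphaKV_mk, alphaKV_mk,
      heckeT_mk (heckeNormPreserves M ℓ m)]
    exact congrArg KV.mk (Subtype.ext (Units.ext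
      (normAlong_alpha_heckeNorm hq hqM hℓ hℓN _)))
  beta_red m m' h x := by
    obtain ⟨u, rfl⟩ := KV.mk_surjective x
    rw [KV.red_mk, betaKV_mk, betaKV_mk, KV.red_mk]
  beta_hecke m ℓ _ hℓ hℓN x := by
    obtain ⟨u, rfl⟩ := KV.mk_surjective x
    rw [heckeT_mk (heckeNormPreserves (M * q) ℓ m), betaKV_mk, betaKV_mk,
      heckeT_mk (heckeNormPreserves M ℓ m)]
    exact congrArg KV.mk (Subtype.ext (Units.ext
      (normAlong_beta_heckeNorm hq hqM (coprime_of hq hℓ hℓN) _)))

end Fermat.Agent.S36.Hecke
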