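import Fermat.Agent.S36.Hecke.BetaNorm
import Fermat.Agent.DR.Hecke.AHecke

set_option autoImplicit false
set_option linter.style.haveILetI false
set_option linter.unusedSectionVars false

/-!
# S36/Hecke : `β_{q *}` commutes with `T_ℓ` at level `M q`, `q ∣ M`
-/

noncomputable section

namespace Fermat.Agent.S36.Hecke

open AlgebraicCurve ModularCurve Fermat.Agent.S24 Fermat.Agent.GAL Fermat.Agent.GAL.Hecke
  Fermat.Agent.DR.Hecke

variable (M q ℓ : ℕ) [NeZero M] [NeZero q] [NeZero ℓ]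

/-- The two towers `FN M → FN (M q) ⊆ FN (M q ℓ)` and `FN M ⊆ FN (M ℓ) → FN (M ℓ q)`. -/
theorem alpha_comp_beta :
    (heckeAlphaBar Kbar (M * q) ℓ).comp (heckeBetaBar Kbar M q) =
      (((swapLevel M q ℓ : FN (M * ℓ * q) ≃ₐ[Kbar] FN (M * q * ℓ)) :
        FN (M * ℓ * q) →ₐ[Kbar] FN (M * q * ℓ)).comp (heckeBetaBar Kbar (M * ℓ) q)).comp
        (heckeAlphaBar Kbar M ℓ) := by
  apply AlgHom.ext
  intro x
  apply Subtype.ext
  show ((heckeAlphaBar Kbar (M * q) ℓ (heckeBetaBar Kbar M q x) : FN (M * q * ℓ)) :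
      LaurentSeries Kbar) =
    ((swapLevel M q ℓ (heckeBetaBar Kbar (M * ℓ) q (heckeAlphaBar Kbar M ℓ x)) :
      FN (M * q * ℓ)) : LaurentSeries Kbar)
  rw [coe_swapLevel, coe_heckeAlphaBar, coe_heckeBetaBar, coe_heckeBetaBar, coe_heckeAlphaBar]

/-- norm along `swapLevel ∘ β`. -/
theorem normAlong_swapLevel_comp_beta (y : FN (M * q * ℓ)) :
    normAlong (((swapLevel M q ℓ : FN (M * ℓ * q) ≃ₐ[Kbar] FN (M * q * ℓ)) :
        FN (M * ℓ * q) →ₐ[Kbar] FN (M * q * ℓ)).comp (heckeBetaBar Kbar (M * ℓ) q)) y =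
      normAlong (heckeBetaBar Kbar (M * ℓ) q) ((swapLevel M q ℓ).symm y) := by
  have key := normAlong_equiv_equiv (heckeBetaBar Kbar (M * ℓ) q)
    (((swapLevel M q ℓ : FN (M * ℓ * q) ≃ₐ[Kbar] FN (M * q * ℓ)) :
        FN (M * ℓ * q) →ₐ[Kbar] FN (M * q * ℓ)).comp (heckeBetaBar Kbar (M * ℓ) q))
    (RingEquiv.refl (FN (M * ℓ))) ((swapLevel M q ℓ).toRingEquiv) (fun x => rfl)
    ((swapLevel M q ℓ).symm y)
  have h1 : (swapLevel M q ℓ).toRingEquiv ((swapLevel M q ℓ).symm y) = y :=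
    (swapLevel M q ℓ).apply_symm_apply y
  rw [h1] at key
  exact key

variable {M q ℓ}

/-- **Base change of the norm**: `N_{β_q}` at level `M ℓ` of `β_ℓ f` is `β_ℓ` of `N_{β_q} f`. -/
theorem normAlong_beta_beta (hq : q.Prime) (hqM : q ∣ M) (hℓq : Nat.Coprime ℓ q)
    (f : FN (M * q)) :
    normAlong (heckeBetaBar Kbar (M * ℓ) q)
        ((swapLevel M q ℓ).symm (heckeBetaBar Kbar (M * q) ℓ f)) =
      heckeBetaBar Kbar M ℓ (normAlong (heckeBetaBar Kbar M q) f) := by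
  obtain ⟨ζ, hζ⟩ := HasEnoughRootsOfUnity.exists_primitiveRoot Kbar q
  have hζ0 : ζ ≠ 0 := hζ.ne_zero hq.ne_zero
  have hζ' : IsPrimitiveRoot (ζ ^ ℓ) q := hζ.pow_of_coprime ℓ hℓq
  apply Subtype.ext
  apply qExpand_injective (R := Kbar) (N := q)
  rw [qExpand_normAlong_beta hq (hqM.mul_right ℓ) hζ, coe_swapLevel_symm, coe_heckeBetaBar,
    coe_heckeBetaBar, qExpand_comm q ℓ, qExpand_normAlong_beta hq hqM hζ', map_prod]
  refine Finset.prod_congr rfl fun i _ => ?_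
  rw [twist_qExpand']
  congr 1
  exact twist_congr (by rw [← pow_mul, ← pow_mul, mul_comm]) _ _ _

/-- **`β_{q *}` commutes with `T_ℓ`** (on functions). -/
theorem normAlong_beta_heckeNorm (hq : q.Prime) (hqM : q ∣ M) (hℓq : Nat.Coprime ℓ q)
    (f : FN (M * q)) :
    normAlong (heckeBetaBar Kbar M q) (heckeNorm Kbar (M * q) ℓ f) =
      heckeNorm Kbar M ℓ (normAlong (heckeBetaBar Kbar M q) f) := by
  have h1 : heckeNorm Kbar (M * q) ℓ f =
      normAlong (heckeAlphaBar Kbar (M * q) ℓ) (heckeBetaBar Kbar (M * q) ℓ f) := rfl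
  have h2 : heckeNorm Kbar M ℓ (normAlong (heckeBetaBar Kbar M q) f) =
      normAlong (heckeAlphaBar Kbar M ℓ)
        (heckeBetaBar Kbar M ℓ (normAlong (heckeBetaBar Kbar M q) f)) := rfl
  rw [h1, h2, ← normAlong_comp, alpha_comp_beta, normAlong_comp, normAlong_swapLevel_comp_beta,
    normAlong_beta_beta hq hqM hℓq]

end Fermat.Agent.S36.Hecke
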