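import Mathlib
import Fermat.Agent.GAL.Hecke.AtkinLehner

set_option autoImplicit false
set_option linter.unusedSectionVars false

/-!
# S36/Hecke : the Fricke involution `w_N` of the function field of `X₀(N)`

For every `N` a `Kbar`-algebra involution `fricke N` of `FN N = Kbar(j(q^d) : d ∣ N)` with
`fricke N (j(q^d)) = j(q^(N/d))`. Analytically it is the composition with `τ ↦ -1/(N τ)`.
It exchanges the two degeneracy maps: `w_{M ℓ} ∘ α = β ∘ w_M`, `w_{M ℓ} ∘ β = α ∘ w_M`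
(any `M`, `ℓ`).
-/

open UpperHalfPlane Complex ModularCurve CongruenceSubgroup
open scoped Manifold MatrixGroups

noncomputable section

namespace Fermat.Agent.S36.Hecke

open Fermat.Agent.S24 Fermat.Agent.S24.FNAdjoin Fermat.Agent.S24.JLocal Fermat.Agent.S24.EmbedFN
  Fermat.Agent.GAL.AtkinLehner

/-- `τ ↦ -1/(N τ)`. -/
def Wfr (N : ℕ) [NeZero N] (τ : ℍ) : ℍ := ModularGroup.S • mulH N τ

theorem Wfr_surjective (N : ℕ) [NeZero N] : Function.Surjective (Wfr N) := fun τ =>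
  ⟨divH N (ModularGroup.S⁻¹ • τ), by rw [Wfr, mulH_divH, smul_inv_smul]⟩

theorem mulH_Wfr {N : ℕ} [NeZero N] (d e : ℕ) [NeZero d] [NeZero e] (h : N = d * e) (τ : ℍ) :
    mulH d (Wfr N τ) = ModularGroup.S • mulH e τ := by
  ext
  rw [coe_mulH, Wfr, UpperHalfPlane.modular_S_smul, UpperHalfPlane.modular_S_smul]
  simp only [UpperHalfPlane.coe_mk, coe_mulH]
  have hd := natCast_ne_zero' d
  have he := natCast_ne_zero' e
  have hτ : (τ : ℂ) ≠ 0 := UpperHalfPlane.ne_zero τ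
  rw [h]
  push_cast
  field_simp

theorem kleinJ_mulH_Wfr {N : ℕ} [NeZero N] (d e : ℕ) [NeZero d] [NeZero e] (h : N = d * e)
    (τ : ℍ) : kleinJ (mulH d (Wfr N τ)) = kleinJ (mulH e τ) := by
  rw [mulH_Wfr d e h, kleinJ_smul]

variable (N : ℕ) [NeZero N]

theorem exists_frA (x : A N) :
    ∃ y : A N, ∀ τ : ℍ, PsiA N y τ = PsiA N x (Wfr N τ) := by
  refine A_induction' (P := fun x => ∃ y : A N, ∀ τ : ℍ,
    PsiA N y τ = PsiA N x (Wfr N τ)) ?_ ?_ ?_ ?_ x
  · intro d _ hd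
    obtain ⟨e, he⟩ := hd
    have : NeZero e := ⟨fun h0 => NeZero.ne N (by rw [he, h0, mul_zero])⟩
    refine ⟨⟨FNAdjoin.jd N e (Dvd.intro_left d he.symm), jd_mem_A _ _ _⟩, fun τ => ?_⟩
    rw [PsiA_jd, PsiA_jd, kleinJ_mulH_Wfr d e he]
  · intro c
    exact ⟨algebraMap Kbar _ c, fun τ => by rw [PsiA_algebraMap, PsiA_algebraMap]⟩
  · rintro x y ⟨x', hx⟩ ⟨y', hy⟩
    exact ⟨x' + y', fun τ => by rw [map_add, map_add, Pi.add_apply, Pi.add_apply, hx, hy]⟩
  · rintro x y ⟨x', hx⟩ ⟨y', hy⟩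
    exact ⟨x' * y', fun τ => by rw [map_mul, map_mul, Pi.mul_apply, Pi.mul_apply, hx, hy]⟩

/-- The Fricke operator on `A N = Kbar[j(q^d)]`, as a function. -/
def frFun (x : A N) : A N := (exists_frA N x).choose

theorem PsiA_frFun (x : A N) (τ : ℍ) : PsiA N (frFun N x) τ = PsiA N x (Wfr N τ) :=
  (exists_frA N x).choose_spec τ

variable {N} in
theorem frFun_eq {x y : A N} (h : ∀ τ : ℍ, PsiA N y τ = PsiA N x (Wfr N τ)) :
    frFun N x = y := by
  apply PsiA_injective
  funext τ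
  rw [PsiA_frFun, h]

/-- The Fricke operator on `A N = Kbar[j(q^d)]`. -/
def frA : A N →ₐ[Kbar] A N where
  toFun := frFun N
  map_one' := frFun_eq fun τ => by rw [map_one]; rfl
  map_mul' x y := frFun_eq fun τ => by
    rw [map_mul, map_mul, Pi.mul_apply, Pi.mul_apply, PsiA_frFun, PsiA_frFun]
  map_zero' := frFun_eq fun τ => by rw [map_zero]; rfl
  map_add' x y := frFun_eq fun τ => by
    rw [map_add, map_add, Pi.add_apply, Pi.add_apply, PsiA_frFun, PsiA_frFun]
  commutes' c := frFun_eq fun τ => by rw [PsiA_algebraMap, PsiA_algebraMap]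

theorem PsiA_frA (x : A N) (τ : ℍ) : PsiA N (frA N x) τ = PsiA N x (Wfr N τ) :=
  PsiA_frFun N x τ

theorem frA_injective : Function.Injective (frA N) := by
  intro x y h
  apply PsiA_injective
  funext τ
  obtain ⟨τ', rfl⟩ := Wfr_surjective N τ
  rw [← PsiA_frA, ← PsiA_frA, h]

theorem frA_jd (d e : ℕ) [NeZero d] [NeZero e] (h : N = d * e) :
    frA N ⟨FNAdjoin.jd N d (Dvd.intro e h.symm), jd_mem_A _ _ _⟩ =
      ⟨FNAdjoin.jd N e (Dvd.intro_left d h.symm), jd_mem_A _ _ _⟩ :=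
  frFun_eq fun τ => by rw [PsiA_jd, PsiA_jd, kleinJ_mulH_Wfr d e h]

/-- **The Fricke involution** of the function field `FN N`. -/
def fricke : FN N →ₐ[Kbar] FN N :=
  IsFractionRing.liftAlgHom (A := A N) (K := FN N)
    (g := (A N).val.comp (frA N)) (Subtype.val_injective.comp (frA_injective N))

theorem fricke_coe (x : A N) : fricke N (x : FN N) = frA N x :=
  IsFractionRing.liftAlgHom_apply _ _ |>.trans (IsFractionRing.lift_algebraMap _ x)

theorem fricke_jd (d e : ℕ) [NeZero d] [NeZero e] (h : N = d * e) :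
    fricke N (FNAdjoin.jd N d (Dvd.intro e h.symm)) =
      FNAdjoin.jd N e (Dvd.intro_left d h.symm) := by
  have h1 := fricke_coe N ⟨FNAdjoin.jd N d (Dvd.intro e h.symm), jd_mem_A _ _ _⟩
  rw [frA_jd N d e h] at h1
  exact h1

theorem fricke_comp_fricke : (fricke N).comp (fricke N) = AlgHom.id Kbar _ := by
  apply AlgHom.coe_ringHom_injective
  refine ringHom_ext (fun c => ?_) (fun d _ hd => ?_)
  · simp
  · show fricke N (fricke N _) = _
    obtain ⟨e, he⟩ := hd
    have : NeZero e := ⟨fun h0 => NeZero.ne N (by rw [he, h0, mul_zero])⟩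
    rw [fricke_jd N d e he, fricke_jd N e d (by rw [he, mul_comm])]
    rfl

theorem fricke_fricke (x : FN N) : fricke N (fricke N x) = x :=
  AlgHom.congr_fun (fricke_comp_fricke N) x

/-- The Fricke involution as an equivalence. -/
def frickeEquiv : FN N ≃ₐ[Kbar] FN N :=
  AlgEquiv.ofAlgHom (fricke N) (fricke N) (fricke_comp_fricke N) (fricke_comp_fricke N)

@[simp] theorem frickeEquiv_apply (x : FN N) : frickeEquiv N x = fricke N x := rfl

@[simp] theorem frickeEquiv_symm_apply (x : FN N) : (frickeEquiv N).symm x = fricke N x := rfl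

theorem fricke_isIntegral : (fricke N).toRingHom.IsIntegral :=
  RingHom.isIntegral_of_surjective _ fun x => ⟨fricke N x, fricke_fricke N x⟩

variable (M ℓ : ℕ) [NeZero M] [NeZero ℓ]

theorem fricke_comp_alpha :
    (fricke (M * ℓ)).comp (heckeAlphaBar Kbar M ℓ) = (heckeBetaBar Kbar M ℓ).comp (fricke M) := by
  apply AlgHom.coe_ringHom_injective
  refine ringHom_ext (fun c => ?_) (fun d _ hd => ?_)
  · simp
  · show fricke (M * ℓ) (heckeAlphaBar Kbar M ℓ _) = heckeBetaBar Kbar M ℓ (fricke M _)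
    obtain ⟨e, he⟩ := hd
    have : NeZero e := ⟨fun h0 => NeZero.ne M (by rw [he, h0, mul_zero])⟩
    rw [alpha_jd, fricke_jd M d e he, beta_jd,
      fricke_jd (M * ℓ) d (e * ℓ) (by rw [he, mul_assoc])]

theorem fricke_comp_beta :
    (fricke (M * ℓ)).comp (heckeBetaBar Kbar M ℓ) = (heckeAlphaBar Kbar M ℓ).comp (fricke M) := by
  apply AlgHom.coe_ringHom_injective
  refine ringHom_ext (fun c => ?_) (fun d _ hd => ?_)
  · simp
  · show fricke (M * ℓ) (heckeBetaBar Kbar M ℓ _) = heckeAlphaBar Kbar M ℓ (fricke M _)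
    obtain ⟨e, he⟩ := hd
    have : NeZero e := ⟨fun h0 => NeZero.ne M (by rw [he, h0, mul_zero])⟩
    rw [beta_jd, fricke_jd M d e he, alpha_jd,
      fricke_jd (M * ℓ) (d * ℓ) e (by rw [he]; ring)]

theorem fricke_alpha (x : FN M) :
    fricke (M * ℓ) (heckeAlphaBar Kbar M ℓ x) = heckeBetaBar Kbar M ℓ (fricke M x) :=
  AlgHom.congr_fun (fricke_comp_alpha M ℓ) x

theorem fricke_beta (x : FN M) :
    fricke (M * ℓ) (heckeBetaBar Kbar M ℓ x) = heckeAlphaBar Kbar M ℓ (fricke M x) :=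
  AlgHom.congr_fun (fricke_comp_beta M ℓ) x

end Fermat.Agent.S36.Hecke
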