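import Fermat.Agent.S36.Hecke.BetaHecke

set_option autoImplicit false
set_option linter.style.haveILetI false
set_option linter.unusedSectionVars false

/-!
# S36/Hecke : the Fricke involution commutes with `T_ℓ`; `α_{q *}` commutes with `T_ℓ` (`q ∣ M`)
-/

noncomputable section

namespace Fermat.Agent.S36.Hecke

open AlgebraicCurve ModularCurve Fermat.Agent.S24 Fermat.Agent.GAL Fermat.Agent.GAL.Hecke
  Fermat.Agent.DR.Hecke

variable {N ℓ : ℕ} [NeZero N] [NeZero ℓ]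

/-- `T_ℓ` is equal to its transpose: `N_β ∘ α = N_α ∘ β` for a prime `ℓ ∤ N`. -/
theorem normAlong_beta_alpha (hℓ : ℓ.Prime) (hℓN : ¬ ℓ ∣ N) (g : FN N) :
    normAlong (heckeBetaBar Kbar N ℓ) (heckeAlphaBar Kbar N ℓ g) =
      normAlong (heckeAlphaBar Kbar N ℓ) (heckeBetaBar Kbar N ℓ g) := by
  have key := normAlong_equiv_equiv (heckeAlphaBar Kbar N ℓ) (heckeBetaBar Kbar N ℓ)
    (RingEquiv.refl (FN N)) (wEquiv N ℓ hℓ hℓN)
    (fun x => (wHom_alpha N ℓ hℓ hℓN x).symm) (heckeBetaBar Kbar N ℓ g)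
  rw [wEquiv_apply, wHom_beta] at key
  exact key

/-- **`T_ℓ` commutes with the Fricke involution** (on functions). -/
theorem heckeNorm_fricke (hℓ : ℓ.Prime) (hℓN : ¬ ℓ ∣ N) (f : FN N) :
    heckeNorm Kbar N ℓ (fricke N f) = fricke N (heckeNorm Kbar N ℓ f) := by
  have h1 : heckeNorm Kbar N ℓ f =
      normAlong (heckeAlphaBar Kbar N ℓ) (heckeBetaBar Kbar N ℓ f) := rfl
  have h2 : heckeNorm Kbar N ℓ (fricke N f) =
      normAlong (heckeAlphaBar Kbar N ℓ) (heckeBetaBar Kbar N ℓ (fricke N f)) := rfl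
  rw [h1, h2, ← normAlong_beta_fricke, fricke_beta, normAlong_beta_alpha hℓ hℓN]

variable {M q : ℕ} [NeZero M] [NeZero q]

/-- **`α_{q *}` commutes with `T_ℓ`** (on functions), `q ∣ M`. -/
theorem normAlong_alpha_heckeNorm (hq : q.Prime) (hqM : q ∣ M) (hℓ : ℓ.Prime)
    (hℓN : ¬ ℓ ∣ M * q) (f : FN (M * q)) :
    normAlong (heckeAlphaBar Kbar M q) (heckeNorm Kbar (M * q) ℓ f) =
      heckeNorm Kbar M ℓ (normAlong (heckeAlphaBar Kbar M q) f) := by
  have hℓM : ¬ ℓ ∣ M := fun h => hℓN (h.mul_right q)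
  have hℓq : Nat.Coprime ℓ q := by
    rw [Nat.coprime_primes hℓ hq]
    rintro rfl
    exact hℓN (dvd_mul_left _ _)
  have h1 : ∀ y : FN (M * q), normAlong (heckeAlphaBar Kbar M q) y =
      fricke M (normAlong (heckeBetaBar Kbar M q) (fricke (M * q) y)) := by
    intro y
    rw [normAlong_beta_fricke, fricke_fricke]
  rw [h1, h1 f, ← heckeNorm_fricke hℓ hℓN, normAlong_beta_heckeNorm hq hqM hℓq,
    heckeNorm_fricke hℓ hℓM]

end Fermat.Agent.S36.Hecke
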